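import Mathlib
import Fermat.Agent.LT.Descent.Spectral.Gens
import Fermat.Agent.LT.Descent.Spectral.CuspForm

set_option autoImplicit false

/-!
# The joint eigenvectors of the matched operators
-/

noncomputable section

open MeasureTheory NumberField IsDedekindDomain
open scoped MatrixGroups

namespace FermatAgent.LT

namespace Setup

variable (S : Setup)

/-- `t` gives the traces of the Frobenius elements of the places of `F`. -/
structure IsTrace (t : HeightOneSpectrum (𝓞 S.F) → ℤ) : Prop where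
  frob : ∀ w, ((3 * S.m : ℕ) : 𝓞 S.F) ∉ w.asIdeal → ∀ σ, IsFrobOver w σ → q8Trace (S.ρ σ) = t w
  bound : ∀ w, |t w| ≤ 2
  gal : ∀ σ : S.F ≃+* S.F, ∀ w, ((3 * S.m : ℕ) : 𝓞 S.F) ∉ w.asIdeal → t (galPlace σ w) = t w

/-- The mean value of the unit balls at all the places of a field. -/
def unitMean (L : IntermediateField ℚ (AlgebraicClosure ℚ)) [NumberField L] : ℂ :=
  (H3.sph0 1 : ℂ) ^ Fintype.card (InfinitePlace L)

theorem unitMean_ne_zero (L : IntermediateField ℚ (AlgebraicClosure ℚ)) [NumberField L] :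
    unitMean L ≠ 0 :=
  pow_ne_zero _ (Complex.ofReal_ne_zero.mpr (H3.sph0_pos one_pos).ne')

end Setup

variable {S : Setup}

/-- The eigenvalue of the Hecke operator at a place of `F`. -/
def lamOf (t : HeightOneSpectrum (𝓞 S.F) → ℤ) (w : HeightOneSpectrum (𝓞 S.F)) : ℂ :=
  ((Real.sqrt (Ideal.absNorm w.asIdeal) * t w : ℝ) : ℂ)

/-- A vector on which the words act as on the dihedral form with traces `t`. -/
structure IsEigenVec (Ψ : S.PsiData) (t : HeightOneSpectrum (𝓞 S.F) → ℤ)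
    (𝔇F : AutDomain PGL(2, S.F) (yVol (S.levelIdeal S.F))) (v : 𝔇F.Space) : Prop where
  unit : (MWord.unit (S := S) 0).OF Ψ 𝔇F v = Setup.unitMean S.F • v
  ball : ∀ (w : InfinitePlace S.F) (q : ℚ), 0 < q →
    (MWord.ball w (q : ℝ)).OF Ψ 𝔇F v = ((H3.sph0 q : ℂ) * Setup.unitMean S.F) • v
  hecke : ∀ w (hw : ((3 * S.m : ℕ) : 𝓞 S.F) ∉ w.asIdeal),
    (MWord.hecke w hw).OF Ψ 𝔇F v = (lamOf t w * Setup.unitMean S.F) • v

/-- A vector on `K` with the eigenvalues prescribed by `D` away from the place `D.ws`. -/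
structure DescentData.IsKVec (D : DescentData S)
    (𝔇K : AutDomain PGL(2, S.K) (yVol (S.levelIdeal S.K))) (v : 𝔇K.Space) : Prop where
  unit : (isYKernel_unitKer (S.isCosetOp_levelOpK D.Ψ)).clm 𝔇K v = Setup.unitMean S.K • v
  ball : ∀ (u : InfinitePlace S.K) (q : ℚ), 0 < q →
    (isYKernel_placeKer (S.isCosetOp_levelOpK D.Ψ) u (q : ℝ)).clm 𝔇K v =
      ((H3.sph0 q : ℂ) * Setup.unitMean S.K) • v
  bc : ∀ (w : HeightOneSpectrum (𝓞 S.F)) (hw : ((3 * S.m : ℕ) : 𝓞 S.F) ∉ w.asIdeal), w ≠ D.ws →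
    (isYKernel_unitKer ((S.isCosetOp_levelOpK D.Ψ).mul (S.isCosetOp_bcOp hw))).clm 𝔇K v =
      (D.lam w * Setup.unitMean S.K) • v

end FermatAgent.LT
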