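import Mathlib
import Fermat.Agent.LT.Descent.Spectral.Final.Defs

set_option autoImplicit false

/-!
# The dihedral form as a vector
-/

noncomputable section

open MeasureTheory NumberField IsDedekindDomain Filter
open scoped MatrixGroups

namespace FermatAgent.LT

theorem H3.IsSph0.comp_conjPt {f : H3 → ℂ} (h : H3.IsSph0 f) :
    H3.IsSph0 fun P => f (H3.conjPt P) := by
  intro P ε hε
  have e : H3.conjPt ⁻¹' H3.ball (H3.conjPt P) ε = H3.ball P ε := by
    ext Q
    simp only [Set.mem_preimage, H3.ball, Set.mem_ofPred_eq, H3.coshDist_conj]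
  have h2 := H3.measurePreserving_conjPt.setIntegral_preimage_emb
    H3.conjEquiv.measurableEmbedding f (H3.ball (H3.conjPt P) ε)
  rw [e] at h2
  rw [← h (H3.conjPt P) ε hε]
  exact h2

namespace EigenF

variable {S : Setup}

/-- A function on the space which behaves as the dihedral form with traces `t`. -/
structure IsEigenFun (Ψ : S.PsiData) (t : HeightOneSpectrum (𝓞 S.F) → ℤ)
    (Φ : YSpace (S.levelIdeal S.F) → ℂ) : Prop where
  measurable : Measurable Φ
  invariant : ∀ (γ : PGL(2, S.F)) y, Φ (γ • y) = Φ y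
  bounded : ∃ C, ∀ y, ‖Φ y‖ ≤ C
  level : ∀ x, S.levelOpF Ψ (fun p => Φ (x, p)) = fun p => Φ (x, p)
  hecke : ∀ w, ((3 * S.m : ℕ) : 𝓞 S.F) ∉ w.asIdeal → ∀ x,
    heckeOp (S.levelIdeal S.F) w (fun p => Φ (x, p)) = fun p => lamOf t w * Φ (x, p)
  sph : ∀ (w : InfinitePlace S.F) x q, letI := Classical.decEq (InfinitePlace S.F)
    H3.IsSph0 fun P => Φ (Function.update x w P, q)

variable {Ψ : S.PsiData} {t : HeightOneSpectrum (𝓞 S.F) → ℤ}
  {Φ : YSpace (S.levelIdeal S.F) → ℂ}
  {𝔇F : AutDomain PGL(2, S.F) (yVol (S.levelIdeal S.F))}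

/-- The mean value of a word of balls of length at most one. -/
theorem IsEigenFun.mean (h : IsEigenFun Ψ t Φ) (l : List ℝ) (hl : l.length ≤ 1)
    (hpos : ∀ ε ∈ l, 0 < ε) (w : InfinitePlace S.F) (x : XInf S.F) (P : H3)
    (q : Cosets (S.levelIdeal S.F)) :
    letI := Classical.decEq (InfinitePlace S.F)
    ∫ Q, H3.ballWord l P Q * Φ (Function.update x w Q, q) ∂H3.vol =
      ((l.map fun ε => (H3.sph0 ε : ℂ)).prod * H3.sph0 1) * Φ (Function.update x w P, q) := by
  classical
  obtain ⟨C, hC⟩ := h.bounded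
  have hf : Measurable fun Q => Φ (Function.update x w Q, q) :=
    h.measurable.comp ((measurable_update x).prodMk measurable_const)
  have h1 : ∀ (ε : ℝ), 0 < ε → ∀ U, ∫ Q, H3.ballKer ε U Q * Φ (Function.update x w Q, q) ∂H3.vol =
      (H3.sph0 ε : ℂ) * Φ (Function.update x w U, q) := fun ε hε U => by
    rw [H3.integral_ballKer_mul]
    exact h.sph w x q U ε hε
  match l, hl, hpos with
  | [], _, _ =>
    simpa [H3.ballWord] using h1 1 one_pos P
  | [ε], _, hpos =>
    simpa [H3.ballWord] using H3.mean_kConv (H3.isInvKer_ballKer ε) (H3.isInvKer_ballKer 1) hf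
      (fun U => hC _) (fun U => h1 ε (hpos ε List.mem_cons_self) U) (fun U => h1 1 one_pos U) P

/-- The action of a word on the vector of a function. -/
theorem IsEigenFun.word (h : IsEigenFun Ψ t Φ) {v : 𝔇F.Space}
    (hv : 𝔇F.lift v =ᵐ[yVol (S.levelIdeal S.F)] Φ) (x : MWord S)
    (hlen : ∀ w, (x.rad w).length ≤ 1) (hpos : ∀ w, ∀ ε ∈ x.rad w, 0 < ε) {r : ℂ}
    (hr : ∀ z, heckeWord (S.levelIdeal S.F) x.pl (fun p => Φ (z, p)) = fun p => r * Φ (z, p)) :
    x.OF Ψ 𝔇F v =
      ((∏ w, ((x.rad w).map fun ε => (H3.sph0 ε : ℂ)).prod * H3.sph0 1) * r) • v := by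
  classical
  obtain ⟨C, hC⟩ := h.bounded
  set a := (∏ w, ((x.rad w).map fun ε => (H3.sph0 ε : ℂ)).prod * H3.sph0 1) * r
  have hT : ∀ z, x.opF Ψ (fun p => Φ (z, p)) = fun p => r * Φ (z, p) := fun z => by
    rw [MWord.opF, Module.End.mul_apply, hr,
      show (fun p => r * Φ (z, p)) = r • fun p => Φ (z, p) from rfl, map_smul, h.level]
  have hop : ∀ y, yOp (x.kerF Ψ) Φ y = a * Φ y := fun y =>
    yOp_yKer_mean (fun w => H3.isInvKer_ballWord _) (x.opF_cosetOp Ψ) h.measurable hC hT
      (fun w z P q => h.mean _ (hlen w) (hpos w) w z P q) y.1 y.2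
  have hlift : 𝔇F.lift (x.OF Ψ 𝔇F v) =ᵐ[yVol (S.levelIdeal S.F)] fun y => a * Φ y :=
    ((x.isYKernel_kerF Ψ).lift_clm_ae 𝔇F v).trans
      ((AutDomain.op_congr_ae (T := yTransport S.F (S.levelIdeal S.F))
        (W := Function.uncurry (x.kerF Ψ)) hv).trans (Eventually.of_forall hop))
  refine Lp.ext ?_
  filter_upwards [𝔇F.lift_ae_restrict (x.OF Ψ 𝔇F v), ae_restrict_of_ae hlift,
    Lp.coeFn_smul a v, 𝔇F.lift_ae_restrict v, ae_restrict_of_ae hv] with y h1 h2 h3 h4 h5
  rw [← h1, h2, h3, Pi.smul_apply, ← h4, h5, smul_eq_mul]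

theorem IsEigenFun.isEigenVec (h : IsEigenFun Ψ t Φ) {v : 𝔇F.Space}
    (hv : 𝔇F.lift v =ᵐ[yVol (S.levelIdeal S.F)] Φ) : IsEigenVec Ψ t 𝔇F v where
  unit := by
    rw [h.word hv (MWord.unit 0) (fun w => by simp [MWord.unit])
      (fun w ε hε => by simp [MWord.unit] at hε) (r := 1)
      (fun z => by simp [MWord.unit, heckeWord])]
    simp [MWord.unit, Setup.unitMean, Finset.card_univ]
  ball w q hq := by
    classical
    rw [h.word hv (MWord.ball w (q : ℝ)) (fun u => ?_) (fun u ε hε => ?_) (r := 1)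
      (fun z => by simp [MWord.ball, heckeWord])]
    · congr 1
      simp only [MWord.ball, mul_one, Setup.unitMean, Finset.prod_mul_distrib, Finset.prod_const,
        Finset.card_univ]
      congr 1
      rw [Finset.prod_eq_single w (fun u _ hu => by simp [Function.update_of_ne hu])
        (fun hw => absurd (Finset.mem_univ w) hw)]
      simp
    · rcases eq_or_ne u w with rfl | hu
      · simp [MWord.ball]
      · simp [MWord.ball, Function.update_of_ne hu]
    · rcases eq_or_ne u w with rfl | hu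
      · simp [MWord.ball] at hε
        subst hε
        exact_mod_cast hq
      · simp [MWord.ball, Function.update_of_ne hu] at hε
  hecke w hw := by
    rw [h.word hv (MWord.hecke w hw) (fun u => by simp [MWord.hecke])
      (fun u ε hε => by simp [MWord.hecke] at hε) (r := lamOf t w)
      (fun z => by simpa [MWord.hecke, heckeWord] using h.hecke w hw z)]
    simp [MWord.hecke, Setup.unitMean, Finset.card_univ, mul_comm]

/-- The vector of a bounded function. -/
theorem IsEigenFun.exists_vec (h : IsEigenFun Ψ t Φ)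
    (𝔇F : AutDomain PGL(2, S.F) (yVol (S.levelIdeal S.F)))
    [IsFiniteMeasure ((yVol (S.levelIdeal S.F)).restrict 𝔇F.carrier)] :
    ∃ v : 𝔇F.Space, 𝔇F.lift v =ᵐ[yVol (S.levelIdeal S.F)] Φ := by
  obtain ⟨C, hC⟩ := h.bounded
  have hm : MemLp Φ 2 ((yVol (S.levelIdeal S.F)).restrict 𝔇F.carrier) :=
    MemLp.of_bound h.measurable.aestronglyMeasurable C (Eventually.of_forall hC)
  exact ⟨hm.toLp Φ, 𝔇F.lift_ae_of_eq h.invariant hm.coeFn_toLp⟩

/-- The conjugate of an eigenfunction. -/
theorem IsEigenFun.gal (h : IsEigenFun Ψ t Φ) {σ : S.F ≃+* S.F} (hσ : S.IsGalGen σ)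
    (ht : S.IsTrace t) :
    IsEigenFun Ψ t fun y => Φ ((galYEquiv (S.levelIdeal_map σ)).symm y) := by
  classical
  set e := galYEquiv (S.levelIdeal_map σ)
  set Φ' := fun y => Φ (e.symm y)
  have hgy : ∀ x q, Φ' (galX σ x, galCoset σ q) = Φ (x, q) := fun x q => by
    show Φ (e.symm (galY σ (x, q))) = _
    rw [← galYEquiv_apply (S.levelIdeal_map σ), MeasurableEquiv.symm_apply_apply]
  have hXs : ∀ x, galX σ ((galXEquiv σ).symm x) = x := fun x => by
    rw [← galXEquiv_apply, MeasurableEquiv.apply_symm_apply]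
  have hbij := galCoset_bijective (S.levelIdeal_ne_bot S.F) (S.levelIdeal_map σ)
  have hcomp : ∀ x, (fun p => Φ' (x, p)) ∘ galCoset σ =
      fun p => Φ ((galXEquiv σ).symm x, p) := fun x => funext fun p => by
    conv_lhs => rw [← hXs x]
    exact hgy _ p
  refine ⟨h.measurable.comp e.symm.measurable, fun γ y => ?_, ?_, fun x => ?_, fun w hw x => ?_,
    fun w x q => ?_⟩
  · obtain ⟨δ, rfl⟩ := (galPGL_bijective σ).2 γ
    show Φ (e.symm (galPGL σ δ • y)) = _
    rw [galYEquiv_symm_smul, h.invariant]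
  · exact ⟨h.bounded.choose, fun y => h.bounded.choose_spec _⟩
  · refine hbij.2.injective_comp_right ?_
    simp only
    rw [Setup.levelOpF, ← levelOp_galCoset (S.levelIdeal_ne_bot _) (S.badPlaces_level _)
      S.card_residue_three_F (S.levelIdeal_map σ) (S.psiF_gal Ψ hσ), hcomp, ← Setup.levelOpF,
      h.level]
  · have hw' : ((3 * S.m : ℕ) : 𝓞 S.F) ∉ (galPlace σ w).asIdeal :=
      fun h' => hw ((natCast_mem_galPlace σ w _).mp h')
    have hlam : lamOf t (galPlace σ w) = lamOf t w := by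
      rw [lamOf, lamOf, absNorm_galPlace, ht.gal σ w hw]
    refine hbij.2.injective_comp_right ?_
    simp only
    rw [← heckeOp_galCoset (S.levelIdeal_ne_bot _) (S.levelIdeal_map σ) (S.not_level_le hw), hcomp,
      h.hecke _ hw', hlam]
    funext p
    exact congrArg (lamOf t w * ·) (congrFun (hcomp x) p).symm
  · obtain ⟨p, rfl⟩ := hbij.2 q
    set z := (galXEquiv σ).symm x
    have hflip : ∀ P, galFlip σ w (galFlip σ w P) = P := fun P => by
      unfold galFlip
      split_ifs
      · rfl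
      · exact H3.conjPt_conjPt P
    have hupd : ∀ P, Function.update x w P =
        galX σ (Function.update z (w.comap σ.toRingHom) (galFlip σ w P)) := fun P => by
      funext u
      rw [← galFlip_apply]
      rcases eq_or_ne u w with rfl | hu
      · rw [Function.update_self, Function.update_self, hflip]
      · rw [Function.update_of_ne hu, Function.update_of_ne
          (show u.comap σ.toRingHom ≠ w.comap σ.toRingHom from
            fun he => hu ((galPerm σ).injective he)), galFlip_apply, hXs]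
    have hfun : (fun P => Φ' (Function.update x w P, galCoset σ p)) =
        fun P => Φ (Function.update z (w.comap σ.toRingHom) (galFlip σ w P), p) :=
      funext fun P => by rw [hupd, hgy]
    rw [hfun]
    unfold galFlip
    split_ifs
    · exact h.sph _ z p
    · exact (h.sph _ z p).comp_conjPt

end EigenF

variable {S : Setup}

/-- The dihedral form and its conjugate are joint eigenvectors. -/
theorem exists_eigenVec {Ψ : S.PsiData} (hΨ : Ψ.Nontriv) {σ : S.F ≃+* S.F} (hσ : S.IsGalGen σ)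
    {t : HeightOneSpectrum (𝓞 S.F) → ℤ} (ht : S.IsTrace t)
    (𝔇F : AutDomain PGL(2, S.F) (yVol (S.levelIdeal S.F)))
    [IsFiniteMeasure ((yVol (S.levelIdeal S.F)).restrict 𝔇F.carrier)] :
    ∃ g : 𝔇F.Space, g ≠ 0 ∧ galOp (S.levelIdeal_map σ) 𝔇F g ≠ 0 ∧ IsEigenVec Ψ t 𝔇F g ∧
      IsEigenVec Ψ t 𝔇F (galOp (S.levelIdeal_map σ) 𝔇F g) := by
  classical
  obtain ⟨G, hGne, hG⟩ := exists_dihedral S (S.psiTriple Ψ) (S.psiTriple_nontriv hΨ)
  -- the function on the space
  set Φ : YSpace (S.levelIdeal S.F) → ℂ := fun y => G y.1 y.2.out with hΦdef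
  have hΦ : ∀ x (g : GAf S.F), Φ (x, (g : Cosets (S.levelIdeal S.F))) = G x g := fun x g => by
    have hq : (((g : Cosets (S.levelIdeal S.F)).out : GAf S.F) : Cosets (S.levelIdeal S.F)) = (g : Cosets (S.levelIdeal S.F)) := QuotientGroup.out_eq' _
    rw [QuotientGroup.eq] at hq
    obtain ⟨k, hk, n, hn, hkn⟩ := Subgroup.mem_sup_of_normal_right.1 hq
    rw [Matrix.GeneralLinearGroup.center_eq_range_scalar] at hn
    obtain ⟨a, rfl⟩ := hn
    show G x (g : Cosets (S.levelIdeal S.F)).out = G x g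
    conv_rhs => rw [← mul_inv_cancel_left ((g : Cosets (S.levelIdeal S.F)).out) g, ← hkn, scalar_eq_upperTri,
      ← mul_assoc, hG.cusp.central, hG.cusp.level k hk]
  have hcont : ∀ q, Continuous fun x => Φ (x, q) := fun q => hG.cusp.continuous q.out
  have hfun : EigenF.IsEigenFun Ψ t Φ := by
    refine ⟨?_, fun γ y => ?_, ?_, fun x => ?_, fun w hw x => ?_, fun w x q => ?_⟩
    · exact measurable_from_prod_countable_left fun q => (hcont q).measurable
    · induction γ using Matrix.ProjGenLinGroup.induction_on with | mk γ =>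
      obtain ⟨x, q⟩ := y
      induction q using QuotientGroup.induction_on with | H g =>
      rw [mk_smul, hΦ]
      exact (hΦ _ (rationalMat γ * g)).trans (hG.cusp.rational γ x g)
    · exact ⟨hG.cusp.bounded.choose, fun y => hG.cusp.bounded.choose_spec _ _⟩
    · rw [Setup.levelOpF]
      refine levelOp_eq_self (S.levelIdeal_ne_bot _) (S.badPlaces_level _) S.card_residue_three_F
        (fun v hv => ?_) (fun v hv _ => S.psiF_ne_one hΨ hv) fun v _ hv3 => ?_
      · intro y g b
        simp only [hΦ]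
        exact S.isPsiAt_psiF hG hv x g b
      · intro y g k
        simp only [hΦ]
        exact hG.cuspidal v hv3 x g k
    · funext q
      induction q using QuotientGroup.induction_on with | H g =>
      obtain ⟨τ, hτ⟩ := exists_isFrobOver S.F w
      rw [heckeOp_mk (S.levelIdeal_ne_bot _) (S.not_level_le hw) _ g x, hΦ]
      have e := hG.eigen w hw τ hτ x g
      simp only [heckeT, hΦ] at e ⊢
      rw [e, ht.frob w hw τ hτ, lamOf]
      push_cast
      ring
    · exact hG.cusp.sph0 w x q.out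
  obtain ⟨v, hv⟩ := hfun.exists_vec 𝔇F
  have hgal := lift_galOp_ae (S.levelIdeal_map σ) 𝔇F v
  have hpres := (measurePreserving_galYEquiv (S.levelIdeal_map σ)).symm (galYEquiv (S.levelIdeal_map σ))
  have hv' : 𝔇F.lift (galOp (S.levelIdeal_map σ) 𝔇F v) =ᵐ[yVol (S.levelIdeal S.F)]
      fun y => Φ ((galYEquiv (S.levelIdeal_map σ)).symm y) :=
    hgal.trans (hpres.quasiMeasurePreserving.ae hv)
  have hΦ0 : ¬ Φ =ᵐ[yVol (S.levelIdeal S.F)] 0 := fun h0 => hGne (funext fun x => funext fun g => by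
    rw [← hΦ, eq_of_ae_eq_continuous hcont (fun _ => continuous_const) (F' := fun _ => 0) h0]
    rfl)
  have hzero : 𝔇F.lift (0 : 𝔇F.Space) =ᵐ[yVol (S.levelIdeal S.F)] 0 :=
    𝔇F.lift_ae_of_eq (fun _ _ => rfl) (Lp.coeFn_zero _ _ _)
  refine ⟨v, fun h0 => ?_, fun h0 => ?_, hfun.isEigenVec hv, (hfun.gal hσ ht).isEigenVec hv'⟩
  · rw [h0] at hv
    exact hΦ0 (hv.symm.trans hzero)
  · rw [h0] at hv'
    refine hΦ0 ?_
    filter_upwards [(measurePreserving_galYEquiv (S.levelIdeal_map σ)).quasiMeasurePreserving.ae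
      (hv'.symm.trans hzero)] with y hy
    simpa using hy

end FermatAgent.LT
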