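import Mathlib
import Fermat.Agent.LT.Descent.Spectral.CuspForm

set_option autoImplicit false

/-!
# Equations of operators on vectors, pointwise on the smooth function
-/

noncomputable section

open MeasureTheory Set Filter NumberField IsDedekindDomain
open scoped ENNReal MatrixGroups Topology

namespace FermatAgent.LT

variable {L : Type*} [Field L] [NumberField L] {𝔫 : Ideal (𝓞 L)} [h𝔫 : Fact (𝔫 ≠ ⊥)]
  {T H : Module.End ℂ (Cosets 𝔫 → ℂ)} {Φ : YSpace 𝔫 → ℂ} {c : ℂ}

/-- `T H` at the unit balls is `H` times the eigenvalue. -/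
theorem IsSmoothEigen.yOp_unitKer_mul (h : IsSmoothEigen T Φ c) (hT : IsCosetOp T) (hH : IsCosetOp H)
    (hcomm : Commute T H) (x : XInf L) (q : Cosets 𝔫) :
    yOp (unitKer (T * H)) Φ (x, q) = c * H (fun p => Φ (x, p)) q := by
  obtain ⟨C, hC⟩ := h.bounded
  obtain ⟨D, -, hD⟩ := hT.exists_norm_le
  have hsupp : ∀ g : Cosets 𝔫 → ℂ, H g q = ∑ b ∈ (hH.row q).toFinset, finKer H q b * g b :=
    fun g => by
      rw [hH.expand]
      refine finsum_eq_sum_of_support_subset _ fun b hb => ?_
      simp only [Finite.coe_toFinset, Function.mem_support]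
      exact left_ne_zero_of_mul hb
  have hint : ∀ b, Integrable (fun u => prodKer (fun _ => H3.ballKer 1) x u * T (fun p => Φ (u, p)) b)
      (Measure.pi fun _ : InfinitePlace L => H3.vol) := fun b =>
    (integrable_prodKer (fun _ => H3.isInvKer_ballKer 1) x).mul_bdd
      (measurable_applyT hT h.measurable b).aestronglyMeasurable
      (Eventually.of_forall fun u => hD _ C (fun p => hC (u, p)) b)
  have he : ∀ b, c * Φ (x, b) = ∫ u, prodKer (fun _ => H3.ballKer 1) x u * T (fun p => Φ (u, p)) b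
      ∂(Measure.pi fun _ : InfinitePlace L => H3.vol) := fun b => by
    rw [← h.eigen, unitKer, yOp_yKer (fun _ => H3.isInvKer_ballKer 1) hT h.measurable hC]
  rw [unitKer, yOp_yKer (fun _ => H3.isInvKer_ballKer 1) (hT.mul hH) h.measurable hC, hsupp,
    Finset.mul_sum, Finset.sum_congr rfl fun b _ => (mul_left_comm c _ _).trans (congrArg _ (he b))]
  simp only [← integral_const_mul]
  rw [← integral_finsetSum _ fun b _ => (hint b).const_mul _]
  refine integral_congr_ae (Eventually.of_forall fun u => ?_)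
  dsimp only
  rw [LinearMap.congr_fun hcomm.eq]
  change prodKer (fun _ => H3.ballKer 1) x u * H (T fun p => Φ (u, p)) q = _
  rw [hsupp, Finset.mul_sum]
  exact Finset.sum_congr rfl fun b _ => by ring

variable (𝔇 : AutDomain PGL(2, L) (yVol 𝔫))

/-- An eigen equation of `T H` on the vector is one of `H` at every point. -/
theorem IsSmoothEigen.op_eq_smul (h : IsSmoothEigen T Φ c) (hc : c ≠ 0) (hT : IsCosetOp T)
    (hH : IsCosetOp H) (hcomm : Commute T H) {v : 𝔇.Space} (hv : 𝔇.lift v =ᵐ[yVol 𝔫] Φ) {r : ℂ}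
    (he : (isYKernel_unitKer (hT.mul hH)).clm 𝔇 v = (r * c) • v) (x : XInf L) (q : Cosets 𝔫) :
    H (fun p => Φ (x, p)) q = r * Φ (x, q) := by
  have h1 := yOp_ae_of_eigen 𝔇 (isYKernel_unitKer (hT.mul hH)) hv he
  obtain ⟨C, hC⟩ := h.bounded
  have h2 := congrFun (eq_of_ae_eq_continuous
    (fun q => continuous_yOp_unitKer (hT.mul hH) h.measurable hC q)
    (fun q => continuous_const.mul (h.continuous q)) h1) (x, q)
  simp only [h.yOp_unitKer_mul hT hH hcomm] at h2
  refine mul_left_cancel₀ hc ?_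
  rw [h2]
  ring

end FermatAgent.LT
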