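import Mathlib
import Fermat.Agent.LT.Descent.Spectral.Final.Defs
import Fermat.Agent.LT.Descent.Spectral.Final.SmoothHecke

set_option autoImplicit false

/-!
# The joint eigenvectors on `F` form a line
-/

noncomputable section

open MeasureTheory NumberField IsDedekindDomain
open scoped MatrixGroups

namespace FermatAgent.LT

variable {S : Setup}

theorem MWord.kerF_ball (Ψ : S.PsiData) (w : InfinitePlace S.F) (ε : ℝ) :
    (MWord.ball w ε).kerF Ψ = placeKer (S.levelOpF Ψ) w ε := by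
  classical
  simp only [MWord.kerF, MWord.opF, MWord.ball, placeKer, heckeWord, List.map_nil, List.prod_nil,
    mul_one]
  congr 1
  funext u
  rcases eq_or_ne u w with rfl | hu
  · simp [H3.ballWord]
  · simp [hu, H3.ballWord]

theorem MWord.kerF_hecke (Ψ : S.PsiData) (w : HeightOneSpectrum (𝓞 S.F))
    (hw : ((3 * S.m : ℕ) : 𝓞 S.F) ∉ w.asIdeal) :
    (MWord.hecke w hw).kerF Ψ = unitKer (S.levelOpF Ψ * heckeOp (S.levelIdeal S.F) w) := by
  simp [MWord.kerF, MWord.opF, MWord.hecke, unitKer, heckeWord, H3.ballWord]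

/-- An eigenvector is given by a function behaving as the dihedral form. -/
theorem IsEigenVec.exists_fun {Ψ : S.PsiData} (hΨ : Ψ.Nontriv)
    {t : HeightOneSpectrum (𝓞 S.F) → ℤ} (ht : S.IsTrace t)
    {𝔇F : AutDomain PGL(2, S.F) (yVol (S.levelIdeal S.F))}
    [IsFiniteMeasure ((yVol (S.levelIdeal S.F)).restrict 𝔇F.carrier)] {v : 𝔇F.Space}
    (hv : IsEigenVec Ψ t 𝔇F v) :
    ∃ Φ : YSpace (S.levelIdeal S.F) → ℂ, 𝔇F.lift v =ᵐ[yVol (S.levelIdeal S.F)] Φ ∧
      IsDihedralLike S (S.psiTriple Ψ) fun x g => Φ (x, (g : Cosets (S.levelIdeal S.F))) := by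
  classical
  have hn := S.levelIdeal_ne_bot S.F
  set L := S.levelOpF Ψ
  have hL : IsCosetOp L := S.isCosetOp_levelOpF Ψ
  set c := Setup.unitMean S.F
  have hc : c ≠ 0 := Setup.unitMean_ne_zero S.F
  have hfin : yVol (S.levelIdeal S.F) 𝔇F.carrier < ⊤ := by
    simpa using measure_lt_top ((yVol (S.levelIdeal S.F)).restrict 𝔇F.carrier) Set.univ
  have hsm := MWord.kerF_smoothing_bounded Ψ hΨ
  rw [MWord.kerF_unit] at hsm
  have hunit := hv.unit
  rw [MWord.OF_unit, pow_one] at hunit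
  obtain ⟨Φ, hΦ, hlift⟩ := exists_smooth 𝔇F hfin hL hsm hc hunit
  have hfix := fun x => hΦ.apply_op hc hL (S.levelOpF_idem Ψ) x
  obtain ⟨v₃, hv₃⟩ := Setup.exists_three_mem S.F
  have hcuspop : ∀ p : HeightOneSpectrum (𝓞 S.F), (3 : 𝓞 S.F) ∈ p.asIdeal → IsCuspOpAt p L :=
    fun p h => by
      have hb : p ∈ S.badPlaces S.F := (S.mem_badPlaces_iff _ p).mpr (by
        push_cast; exact Ideal.mul_mem_right _ _ h)
      exact isCuspOpAt_levelOp hn (S.badPlaces_level _) S.card_residue_three_F hb h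
        (S.psiF_ne_one hΨ hb)
  refine ⟨Φ, hlift, ?_, ?_, ?_, ?_⟩
  · refine hΦ.isCuspFn 𝔇F hc hL (S.levelOpF_idem Ψ) (hcuspop v₃ hv₃) hlift fun p ε hε => ?_
    have h := hv.ball p ε (by exact_mod_cast hε)
    rw [MWord.OF] at h
    rw [← h]
    exact congrArg (fun f : 𝔇F.Space →L[ℂ] 𝔇F.Space => f v)
      (clm_congr 𝔇F _ _ (MWord.kerF_ball Ψ p ε).symm)
  · refine Setup.psi_of_isPsiAt S (Ψ := Ψ) (G := fun x g => Φ (x, (g : Cosets (S.levelIdeal S.F))))
      fun p hp x g b => ?_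
    have h := isPsiAt_levelOp hn (S.badPlaces_level _) S.card_residue_three_F (ψ := S.psiF Ψ)
      hp (fun q => Φ (x, q)) x g b
    change L (fun q => Φ (x, q)) _ = _ * L (fun q => Φ (x, q)) _ at h
    rw [hfix x] at h
    exact h
  · intro p hp x g k
    have h := hcuspop p hp (fun q => Φ (x, q)) x g k
    rw [hfix x] at h
    exact h
  · intro w hw σ hσ x g
    have h := hv.hecke w hw
    rw [MWord.OF, clm_congr 𝔇F ((MWord.hecke w hw).isYKernel_kerF Ψ)
      (isYKernel_unitKer (hL.mul (isCosetOp_heckeOp hn (S.not_level_le hw))))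
      (MWord.kerF_hecke Ψ w hw)] at h
    have h2 := hΦ.op_eq_smul 𝔇F hc hL (isCosetOp_heckeOp hn (S.not_level_le hw))
      (S.commute_levelOpF Ψ hw) hlift h x (g : Cosets (S.levelIdeal S.F))
    rw [heckeOp_mk hn (S.not_level_le hw) _ g x] at h2
    refine Eq.trans h2 ?_
    rw [lamOf, ht.frob w hw σ hσ]
    push_cast
    rfl

/-- Multiplicity one for the vectors. -/
theorem IsEigenVec.exists_eq_smul {Ψ : S.PsiData} (hΨ : Ψ.Nontriv)
    {t : HeightOneSpectrum (𝓞 S.F) → ℤ} (ht : S.IsTrace t)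
    {𝔇F : AutDomain PGL(2, S.F) (yVol (S.levelIdeal S.F))}
    [IsFiniteMeasure ((yVol (S.levelIdeal S.F)).restrict 𝔇F.carrier)] {g v : 𝔇F.Space}
    (hg0 : g ≠ 0) (hg : IsEigenVec Ψ t 𝔇F g) (hv : IsEigenVec Ψ t 𝔇F v) :
    ∃ a : ℂ, v = a • g := by
  obtain ⟨Φg, hlg, hDg⟩ := hg.exists_fun hΨ ht
  obtain ⟨Φv, hlv, hDv⟩ := hv.exists_fun hΨ ht
  have hne : (fun (x : XInf S.F) (q : GAf S.F) => Φg (x, (q : Cosets (S.levelIdeal S.F)))) ≠ 0 :=
    fun h0 => hg0 (by
      refine (Lp.eq_zero_iff_ae_eq_zero).mpr ?_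
      filter_upwards [𝔇F.lift_ae_restrict g, ae_restrict_of_ae hlg] with y h1 h2
      obtain ⟨x, q⟩ := y
      obtain ⟨k, rfl⟩ := QuotientGroup.mk_surjective q
      rw [← h1, h2]
      exact congrFun (congrFun h0 x) k)
  obtain ⟨a, ha⟩ := dihedralLike_unique S _ (S.psiTriple_nontriv hΨ) hne hDg hDv
  refine ⟨a, Lp.ext ?_⟩
  filter_upwards [𝔇F.lift_ae_restrict v, ae_restrict_of_ae hlv, Lp.coeFn_smul a g,
    𝔇F.lift_ae_restrict g, ae_restrict_of_ae hlg] with y h1 h2 h3 h4 h5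
  obtain ⟨x, q⟩ := y
  obtain ⟨k, rfl⟩ := QuotientGroup.mk_surjective q
  rw [← h1, h2, h3, Pi.smul_apply, ← h4, h5]
  exact congrFun (congrFun ha x) k

end FermatAgent.LT
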