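import Mathlib
import Fermat.Agent.LT.Descent.Spectral.Final.EigenF
import Fermat.Agent.LT.Descent.Spectral.Final.LineF

set_option autoImplicit false
set_option maxHeartbeats 8000000

/-!
# The pairing of the projection on `F` is not zero
-/

noncomputable section

open MeasureTheory NumberField IsDedekindDomain
open scoped ComplexConjugate MatrixGroups InnerProductSpace

namespace FermatAgent.LT

/-- A symmetric operator and its powers have the same kernel. -/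
theorem eq_zero_of_pow_apply {E : Type*} [NormedAddCommGroup E] [InnerProductSpace ℂ E]
    {A : E →L[ℂ] E} (hA : ∀ x y, ⟪A x, y⟫_ℂ = ⟪x, A y⟫_ℂ) {y : E} :
    ∀ n : ℕ, (A ^ (n + 1)) y = 0 → A y = 0
  | 0, h => by simpa using h
  | n + 1, h => by
    refine eq_zero_of_pow_apply hA n (inner_self_eq_zero (𝕜 := ℂ) |>.mp ?_)
    have e : ∀ m, (A ^ (m + 1)) y = A ((A ^ m) y) := fun m => by rw [pow_succ', StrongLimit.mulv]
    calc ⟪(A ^ (n + 1)) y, (A ^ (n + 1)) y⟫_ℂ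
        = ⟪A ((A ^ n) y), (A ^ (n + 1)) y⟫_ℂ := by rw [← e]
      _ = 0 := by rw [hA, ← e, h, inner_zero_right]

theorem apply_pow_of_eigen {E : Type*} [NormedAddCommGroup E] [InnerProductSpace ℂ E]
    {A : E →L[ℂ] E} {y : E} {c : ℂ} (h : A y = c • y) : ∀ n : ℕ, (A ^ n) y = c ^ n • y
  | 0 => by simp
  | n + 1 => by rw [pow_succ', StrongLimit.mulv, apply_pow_of_eigen h n, map_smul, h, smul_smul,
      pow_succ]

variable {S : Setup}

theorem Setup.conj_unitMean (L : IntermediateField ℚ (AlgebraicClosure ℚ)) [NumberField L] :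
    conj (Setup.unitMean L) = Setup.unitMean L := by simp [Setup.unitMean]

theorem conj_lamOf (t : HeightOneSpectrum (𝓞 S.F) → ℤ) (w : HeightOneSpectrum (𝓞 S.F)) :
    conj (lamOf t w) = lamOf t w := Complex.conj_ofReal _

theorem lamOf_ne_zero {t : HeightOneSpectrum (𝓞 S.F) → ℤ} {w : HeightOneSpectrum (𝓞 S.F)}
    (h : t w ≠ 0) : lamOf t w ≠ 0 := by
  refine Complex.ofReal_ne_zero.mpr (mul_ne_zero ?_ (Int.cast_ne_zero.mpr h))
  rw [Real.sqrt_ne_zero', Nat.cast_pos]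
  exact Nat.pos_of_ne_zero (Ideal.absNorm_eq_zero_iff.not.mpr w.ne_bot)

variable (Ψ : S.PsiData) (t : HeightOneSpectrum (𝓞 S.F) → ℤ)
  (𝔇F : AutDomain PGL(2, S.F) (yVol (S.levelIdeal S.F)))

theorem MWord.OF_unit' (j : ℕ) :
    (MWord.unit (S := S) j).OF Ψ 𝔇F = (MWord.unit (S := S) 0).OF Ψ 𝔇F ^ (j + 1) := by
  rw [MWord.OF_unit, MWord.OF_unit, zero_add, pow_one]

theorem MWord.symm_unit (j : ℕ) (x y : 𝔇F.Space) :
    ⟪(MWord.unit (S := S) j).OF Ψ 𝔇F x, y⟫_ℂ = ⟪x, (MWord.unit (S := S) j).OF Ψ 𝔇F y⟫_ℂ :=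
  MWord.OF_symm _ _ 𝔇F (MWord.hermF_nil _ _ rfl) x y

theorem MWord.symm_hecke (w : HeightOneSpectrum (𝓞 S.F))
    (hw : ((3 * S.m : ℕ) : 𝓞 S.F) ∉ w.asIdeal) (x y : 𝔇F.Space) :
    ⟪(MWord.hecke w hw).OF Ψ 𝔇F x, y⟫_ℂ = ⟪x, (MWord.hecke w hw).OF Ψ 𝔇F y⟫_ℂ :=
  MWord.OF_symm _ _ 𝔇F (MWord.hermF_single _ _ rfl) x y

/-- A vector with the eigenvalues of the dihedral form except for the sign at `ws`. -/
structure IsFlip (ws : HeightOneSpectrum (𝓞 S.F)) (hws : ((3 * S.m : ℕ) : 𝓞 S.F) ∉ ws.asIdeal)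
    (v : 𝔇F.Space) : Prop where
  unit : (MWord.unit (S := S) 0).OF Ψ 𝔇F v = Setup.unitMean S.F • v
  ball : ∀ (w : InfinitePlace S.F) (q : ℚ), 0 < q →
    (MWord.ball w (q : ℝ)).OF Ψ 𝔇F v = ((H3.sph0 q : ℂ) * Setup.unitMean S.F) • v
  hecke : ∀ w (hw : ((3 * S.m : ℕ) : 𝓞 S.F) ∉ w.asIdeal), w ≠ ws →
    (MWord.hecke w hw).OF Ψ 𝔇F v = (lamOf t w * Setup.unitMean S.F) • v
  sign : (MWord.hecke ws hws).OF Ψ 𝔇F v = (-(lamOf t ws * Setup.unitMean S.F)) • v

variable {Ψ t}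

/-- Some inert place admits no flipped vector. -/
theorem exists_noFlip (hΨ : Ψ.Nontriv) {σ : S.F ≃+* S.F} (hσ : S.IsGalGen σ) (ht : S.IsTrace t)
    [IsFiniteMeasure ((yVol (S.levelIdeal S.F)).restrict 𝔇F.carrier)] :
    ∃ (ws : HeightOneSpectrum (𝓞 S.F)) (hws : ((3 * S.m : ℕ) : 𝓞 S.F) ∉ ws.asIdeal),
      Ideal.absNorm ws.asIdeal ≠ Ideal.absNorm (S.underK ws).asIdeal ∧ t ws ≠ 0 ∧
        ∀ v, IsFlip Ψ t 𝔇F ws hws v → v = 0 := by
  by_contra hno
  push Not at hno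
  obtain ⟨ι, e, -⟩ := exists_hilbertBasis ℂ 𝔇F.Space
  set c := Setup.unitMean S.F with hc
  have hc0 : c ≠ 0 := Setup.unitMean_ne_zero _
  set A := (MWord.unit (S := S) S.depth).OF Ψ 𝔇F with hAdef
  have hsum : Summable fun i => ‖A (e i)‖ ^ 2 :=
    ((MWord.unit S.depth).isYKernel_kerF Ψ |>.hasKernel 𝔇F
      (MWord.kerF_smoothing_bounded Ψ hΨ)).summable_norm_sq e
  obtain ⟨n, hn⟩ := exists_nat_gt
    ((∑' i, ‖A (e i)‖ ^ 2) / ‖c ^ (S.depth + 1)‖ ^ 2)
  let pick : Fin n → HeightOneSpectrum (𝓞 S.F) := fun i =>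
    ((S.infinite_inert hσ).natEmbedding _ i).1
  have hpick : Function.Injective pick := fun i j h => Fin.ext
    (((S.infinite_inert hσ).natEmbedding _).injective (Subtype.ext h))
  have hprop : ∀ i, pick i ∈ _ := fun i => ((S.infinite_inert hσ).natEmbedding _ i).2
  have ht0 : ∀ i, t (pick i) ≠ 0 := fun i => by
    obtain ⟨τ, hτ⟩ := exists_isFrobOver S.F (pick i)
    rw [← ht.frob _ (hprop i).1 τ hτ]
    exact (hprop i).2.2.2 τ hτ
  choose v hv hv0 using fun i => hno (pick i) (hprop i).1 (hprop i).2.1 (ht0 i)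
  set u : Fin n → 𝔇F.Space := fun i => (‖v i‖⁻¹ : ℂ) • v i with hu
  have horth : Orthonormal ℂ u := by
    refine ⟨fun i => norm_smul_inv_norm (hv0 i), fun i j hij => ?_⟩
    have hne : pick j ≠ pick i := fun h => hij (hpick h).symm
    have h1 := MWord.symm_hecke Ψ 𝔇F (pick i) (hprop i).1 (v i) (v j)
    rw [(hv i).sign, (hv j).hecke _ (hprop i).1 hne.symm, inner_smul_left, inner_smul_right,
      map_neg, map_mul, conj_lamOf, Setup.conj_unitMean, neg_mul, ← sub_eq_zero] at h1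
    have h2 : (2 * (lamOf t (pick i) * c)) * ⟪v i, v j⟫_ℂ = 0 := by linear_combination -h1
    simp only [hu]
    rw [inner_smul_left, inner_smul_right,
      (mul_eq_zero.mp h2).resolve_left (mul_ne_zero two_ne_zero
        (mul_ne_zero (lamOf_ne_zero (ht0 i)) hc0)), mul_zero, mul_zero]
  have hA : ∀ i, A (u i) = c ^ (S.depth + 1) • u i := fun i => by
    simp only [hu]
    rw [map_smul, hAdef, MWord.OF_unit', apply_pow_of_eigen (hv i).unit, smul_comm]
  have := Joint.card_le_of_orthonormal hsum (MWord.symm_unit Ψ 𝔇F _) horth hA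
  have hpos : 0 < ‖c ^ (S.depth + 1)‖ ^ 2 := pow_pos (norm_pos_iff.mpr (pow_ne_zero _ hc0)) 2
  rw [div_lt_iff₀ hpos] at hn
  linarith

namespace DescentData

variable (D : DescentData S)

theorem lam_eq (w : HeightOneSpectrum (𝓞 S.F)) : D.lam w = lamOf D.t w := rfl

variable {𝔇F} (𝔇K : AutDomain PGL(2, S.K) (yVol (S.levelIdeal S.K)))

/-- The generators kill the joint eigenvectors. -/
theorem mem_kerF_of_eigen {v : 𝔇F.Space} (hv : IsEigenVec D.Ψ D.t 𝔇F v) :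
    v ∈ Joint.kerAll (D.XF 𝔇F 𝔇K) := by
  refine (D.mem_kerF 𝔇F 𝔇K).mpr fun j => ?_
  rw [genF, sub_apply, smul_apply, sub_eq_zero]
  rcases j with p | w | u
  · simp only [word, base, scal]
    rw [hv.ball p.1 _ p.2.2, hv.unit, smul_smul]
  · simp only [word, base, scal]
    rw [hv.hecke w.1 w.2.1, hv.unit, smul_smul, lam_eq]
  · simp only [word, base, scal, ← MWord.OF_mul, StrongLimit.mulv]
    rw [hv.hecke D.ws D.ws_good, map_smul, hv.hecke D.ws D.ws_good, hv.unit, map_smul, hv.unit,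
      smul_smul, smul_smul, smul_smul, lam_eq]
    congr 1
    ring

/-- The generator equations. -/
theorem eq_of_mem_kerF {v : 𝔇F.Space} (hv : v ∈ Joint.kerAll (D.XF 𝔇F 𝔇K)) (j : D.Index) :
    (D.word j).OF D.Ψ 𝔇F v = D.scal j • (D.base j).OF D.Ψ 𝔇F v := by
  have h := (D.mem_kerF 𝔇F 𝔇K).mp hv j
  rwa [genF, sub_apply, smul_apply, sub_eq_zero] at h

/-- The product of the balls of radius one at the places of a list. -/
def onesWord : List (InfinitePlace S.F) → MWord S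
  | [] => MWord.unit 0
  | w :: l => (MWord.ball w 1).mul (onesWord l)

theorem onesWord_pl : ∀ l : List (InfinitePlace S.F), (onesWord l).pl = []
  | [] => rfl
  | w :: l => by
    change (MWord.ball w 1).pl ++ (onesWord l).pl = []
    rw [onesWord_pl l]
    rfl

open Classical in
theorem onesWord_rad : ∀ (l : List (InfinitePlace S.F)) (u : InfinitePlace S.F),
    (onesWord l).rad u = List.replicate (l.length + l.count u) 1
  | [], u => rfl
  | w :: l, u => by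
    rw [onesWord, MWord.mul, MWord.ball]
    dsimp only
    rw [onesWord_rad l u]
    by_cases h : u = w
    · subst h
      rw [Function.update_self, List.count_cons_self, List.length_cons,
        show l.length + 1 + (l.count u + 1) = l.length + l.count u + 2 by omega]
      rfl
    · rw [Function.update_of_ne h, List.count_cons_of_ne (Ne.symm h), List.length_cons,
        show l.length + 1 + l.count u = l.length + l.count u + 1 by omega]
      rfl

theorem OF_onesWord {v : 𝔇F.Space} (hv : v ∈ Joint.kerAll (D.XF 𝔇F 𝔇K)) :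
    ∀ l : List (InfinitePlace S.F), (onesWord l).OF D.Ψ 𝔇F v =
      (H3.sph0 1 : ℂ) ^ l.length • ((MWord.unit (S := S) 0).OF D.Ψ 𝔇F ^ (l.length + 1)) v
  | [] => by simp [onesWord]
  | w :: l => by
    have h1 : (MWord.ball w (1 : ℝ)).OF D.Ψ 𝔇F v =
        (H3.sph0 1 : ℂ) • (MWord.unit (S := S) 0).OF D.Ψ 𝔇F v := by
      simpa [word, base, scal] using
        D.eq_of_mem_kerF 𝔇K hv (Sum.inl (w, ⟨1, one_pos⟩))
    rw [onesWord, ← MWord.OF_mul, StrongLimit.mulv, OF_onesWord hv l, map_smul,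
      ← StrongLimit.mulv, ((MWord.commute_OF D.Ψ _ _ 𝔇F).pow_right _).eq, StrongLimit.mulv, h1,
      map_smul, smul_smul, ← StrongLimit.mulv, ← pow_succ, List.length_cons, ← pow_succ]

open Classical in
/-- On the common kernel the unit operator has the prescribed eigenvalue after one application. -/
theorem unit_eigen {u : 𝔇F.Space} (hu : u ∈ Joint.kerAll (D.XF 𝔇F 𝔇K)) :
    (MWord.unit (S := S) 0).OF D.Ψ 𝔇F ((MWord.unit (S := S) 0).OF D.Ψ 𝔇F u) =
      Setup.unitMean S.F • (MWord.unit (S := S) 0).OF D.Ψ 𝔇F u := by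
  set l := (Finset.univ : Finset (InfinitePlace S.F)).toList
  set B := (MWord.unit (S := S) 0).OF D.Ψ 𝔇F
  set n := l.length
  have hl : ∀ w, l.count w = 1 := fun w => List.count_eq_one_of_mem (Finset.nodup_toList _)
    (Finset.mem_toList.mpr (Finset.mem_univ w))
  have hW : (onesWord l).OF D.Ψ 𝔇F = B ^ (n + 1 + 1) := by
    rw [← MWord.OF_unit', MWord.OF, MWord.OF]
    refine clm_congr 𝔇F _ _ ?_
    simp only [MWord.kerF, MWord.opF, onesWord_pl, onesWord_rad, hl, MWord.unit]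
    rfl
  have h1 := D.OF_onesWord 𝔇K hu l
  rw [hW] at h1
  have h2 : (B ^ (n + 1)) (B u - Setup.unitMean S.F • u) = 0 := by
    rw [map_sub, map_smul, ← StrongLimit.mulv, ← pow_succ, h1, Setup.unitMean,
      ← Finset.card_univ, ← Finset.length_toList, sub_self]
  have h3 := eq_zero_of_pow_apply (MWord.symm_unit D.Ψ 𝔇F 0) n h2
  rwa [map_sub, map_smul, sub_eq_zero] at h3

/-- The unit operator maps the common kernel to joint eigenvectors. -/
theorem isEigenVec_of_mem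
    (hflip : ∀ v, IsFlip D.Ψ D.t 𝔇F D.ws D.ws_good v → v = 0) {u : 𝔇F.Space}
    (hu : u ∈ Joint.kerAll (D.XF 𝔇F 𝔇K)) :
    IsEigenVec D.Ψ D.t 𝔇F ((MWord.unit (S := S) 0).OF D.Ψ 𝔇F u) := by
  set B := (MWord.unit (S := S) 0).OF D.Ψ 𝔇F
  set c := Setup.unitMean S.F
  set v := B u with hvdef
  have hB : B v = c • v := D.unit_eigen 𝔇K hu
  have hcomm : ∀ x : MWord S, ∀ y, x.OF D.Ψ 𝔇F (B y) = B (x.OF D.Ψ 𝔇F y) := fun x y => by
    rw [← StrongLimit.mulv, (MWord.commute_OF D.Ψ x _ 𝔇F).eq, StrongLimit.mulv]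
  have hball : ∀ (w : InfinitePlace S.F) (q : ℚ), 0 < q →
      (MWord.ball w (q : ℝ)).OF D.Ψ 𝔇F v = ((H3.sph0 q : ℂ) * c) • v := fun w q hq => by
    have h := D.eq_of_mem_kerF 𝔇K hu (Sum.inl (w, ⟨q, hq⟩))
    simp only [word, base, scal] at h
    rw [hvdef, hcomm, h, map_smul, ← hvdef, hB, smul_smul]
  have hhecke : ∀ w (hw : ((3 * S.m : ℕ) : 𝓞 S.F) ∉ w.asIdeal), w ≠ D.ws →
      (MWord.hecke w hw).OF D.Ψ 𝔇F v = (lamOf D.t w * c) • v := fun w hw hne => by
    have h := D.eq_of_mem_kerF 𝔇K hu (Sum.inr (Sum.inl ⟨w, hw, hne⟩))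
    simp only [word, base, scal] at h
    rw [hvdef, hcomm, h, map_smul, ← hvdef, hB, smul_smul, lam_eq]
  set T := (MWord.hecke D.ws D.ws_good).OF D.Ψ 𝔇F
  have hTT : T (T v) = ((lamOf D.t D.ws * c) * (lamOf D.t D.ws * c)) • v := by
    have h := D.eq_of_mem_kerF 𝔇K hu (Sum.inr (Sum.inr ()))
    simp only [word, base, scal, ← MWord.OF_mul, StrongLimit.mulv] at h
    rw [hvdef, hcomm, hcomm, h, map_smul, ← hvdef, hB, map_smul, hB, smul_smul, smul_smul, lam_eq]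
    congr 1
    ring
  refine ⟨hB, hball, fun w hw => ?_⟩
  by_cases hne : w = D.ws
  swap
  · exact hhecke w hw hne
  subst hne
  refine sub_eq_zero.mp (hflip _ ⟨?_, fun w q hq => ?_, fun w' hw' hne => ?_, ?_⟩)
  · rw [map_sub, map_smul, ← hcomm, hB, map_smul, smul_sub, smul_comm]
  · rw [map_sub, map_smul, hball w q hq, ← StrongLimit.mulv,
      (MWord.commute_OF D.Ψ _ _ 𝔇F).eq, StrongLimit.mulv, hball w q hq, map_smul, smul_sub,
      smul_comm]
  · rw [map_sub, map_smul, hhecke w' hw' hne, ← StrongLimit.mulv,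
      (MWord.commute_OF D.Ψ _ _ 𝔇F).eq, StrongLimit.mulv, hhecke w' hw' hne, map_smul, smul_sub,
      smul_comm]
  · rw [map_sub, map_smul, hTT, smul_sub, smul_smul, neg_mul, neg_smul, neg_smul, sub_neg_eq_add,
      add_comm, ← sub_eq_add_neg]

/-- **The pairing on `F` is not zero.** -/
theorem pairing_F_ne_zero [IsFiniteMeasure ((yVol (S.levelIdeal S.F)).restrict 𝔇F.carrier)]
    (ht : S.IsTrace D.t) (hts : D.t D.ws ≠ 0)
    (hflip : ∀ v, IsFlip D.Ψ D.t 𝔇F D.ws D.ws_good v → v = 0)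
    {ι : Type*} (e : HilbertBasis ι ℂ 𝔇F.Space) :
    Joint.pairing (MWord.famF D.Ψ D.σ 𝔇F e)
      (MWord.famF' D.Ψ 𝔇F (MWord.hecke D.ws D.ws_good) e)
      (Joint.kerAll (D.XF 𝔇F 𝔇K)).starProjection ≠ 0 := by
  obtain ⟨g₀, hg₀, hθ₀, hg₀e, hθ₀e⟩ := exists_eigenVec D.nontriv D.isGen ht 𝔇F
  set θ := galOp (S.levelIdeal_map D.σ) 𝔇F
  set g := (‖g₀‖⁻¹ : ℂ) • g₀ with hgdef
  have hg1 : ‖g‖ = 1 := norm_smul_inv_norm hg₀
  have hg0 : g ≠ 0 := norm_ne_zero_iff.mp (by rw [hg1]; exact one_ne_zero)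
  obtain ⟨κ, hκ⟩ := hg₀e.exists_eq_smul D.nontriv ht hg₀ hθ₀e
  have hκ0 : κ ≠ 0 := fun h => hθ₀ (by rw [hκ, h, zero_smul])
  have hθg : θ g = κ • g := by rw [hgdef, map_smul, hκ, smul_comm]
  have hge : IsEigenVec D.Ψ D.t 𝔇F g := by
    refine ⟨?_, fun w q hq => ?_, fun w hw => ?_⟩
    · rw [hgdef, map_smul, hg₀e.unit, smul_comm]
    · rw [hgdef, map_smul, hg₀e.ball w q hq, smul_comm]
    · rw [hgdef, map_smul, hg₀e.hecke w hw, smul_comm]
  set P := (Joint.kerAll (D.XF 𝔇F 𝔇K)).starProjection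
  set B := (MWord.unit (S := S) 0).OF D.Ψ 𝔇F
  set A := (MWord.unit (S := S) S.depth).OF D.Ψ 𝔇F
  set T := (MWord.hecke D.ws D.ws_good).OF D.Ψ 𝔇F
  set c := Setup.unitMean S.F
  have hAP : ∀ y, P (A y) = A (P y) := Joint.projection_commute (MWord.symm_unit D.Ψ 𝔇F _)
    fun n => (D.commute_genF 𝔇F _ _).smul_right _
  have hA : A = B ^ (S.depth + 1) := MWord.OF_unit' D.Ψ 𝔇F _
  have hAu : ∀ u ∈ Joint.kerAll (D.XF 𝔇F 𝔇K), A u = (c ^ (S.depth + 1) * ⟪g, u⟫_ℂ) • g := by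
    intro u hu
    have hv := D.isEigenVec_of_mem 𝔇K hflip hu
    obtain ⟨a, ha⟩ := hge.exists_eq_smul D.nontriv ht hg0 hv
    have h1 : a = c * ⟪g, u⟫_ℂ := by
      have h : ⟪g, B u⟫_ℂ = a := by
        rw [ha, inner_smul_right, inner_self_eq_norm_sq_to_K, hg1]
        simp
      rw [← h, ← MWord.symm_unit D.Ψ 𝔇F 0, hge.unit, inner_smul_left, Setup.conj_unitMean]
    rw [hA, pow_succ, StrongLimit.mulv, apply_pow_of_eigen hv.unit, ha, h1, smul_smul, pow_succ,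
      mul_assoc]
  set M := c ^ (S.depth + 1) * c ^ (S.depth + 1) * (lamOf D.t D.ws * c)
  have hterm : ∀ i, ⟪P (MWord.famF D.Ψ D.σ 𝔇F e i),
      MWord.famF' D.Ψ 𝔇F (MWord.hecke D.ws D.ws_good) e i⟫_ℂ =
      conj M * (⟪g, e i⟫_ℂ * ⟪e i, ContinuousLinearMap.adjoint θ g⟫_ℂ) := by
    intro i
    have hu := Submodule.starProjection_apply_mem (Joint.kerAll (D.XF 𝔇F 𝔇K)) (θ (e i))
    have h : T (A (P (A (θ (e i))))) = (M * ⟪g, θ (e i)⟫_ℂ) • g := by
      rw [hAP, hAu _ hu, map_smul, map_smul, hA, apply_pow_of_eigen hge.unit, map_smul,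
        hge.hecke _ D.ws_good, smul_smul, smul_smul,
        ← Submodule.inner_starProjection_left_eq_right, Submodule.starProjection_eq_self_iff.mpr
          (D.mem_kerF_of_eigen 𝔇K hge)]
      congr 1
      simp only [M, c]
      ring
    change ⟪P (A (θ (e i))), T (A (e i))⟫_ℂ = _
    rw [← MWord.symm_hecke, ← MWord.symm_unit, ← StrongLimit.mulv A T,
      (MWord.commute_OF D.Ψ _ _ 𝔇F).eq, StrongLimit.mulv, h, inner_smul_left, map_mul,
      inner_conj_symm, ContinuousLinearMap.adjoint_inner_right]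
    ring
  rw [Joint.pairing, tsum_congr hterm, tsum_mul_left, (e.hasSum_inner_mul_inner g _).tsum_eq,
    ContinuousLinearMap.adjoint_inner_right, hθg, inner_smul_left, inner_self_eq_norm_sq_to_K, hg1]
  simp [M, c, hκ0, Setup.unitMean_ne_zero, lamOf_ne_zero hts]

end DescentData

end FermatAgent.LT
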