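import Mathlib
import Fermat.Agent.LT.Descent.Spectral.Final.CoreF

set_option autoImplicit false

/-!
# A vector on `K` with the prescribed eigenvalues
-/

noncomputable section

open MeasureTheory NumberField IsDedekindDomain
open scoped ComplexConjugate MatrixGroups InnerProductSpace

namespace FermatAgent.LT

variable {S : Setup}

namespace DescentData

variable (D : DescentData S)

theorem comap_gal_comap (w : InfinitePlace S.F) :
    (w.comap D.σ.toRingHom).comap S.inclKF.toRingHom = w.comap S.inclKF.toRingHom := by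
  rw [← InfinitePlace.comap_comp]
  congr 1
  exact RingHom.ext fun a => D.isGen.2 a

theorem w₁_injective : Function.Injective D.w₁ := fun a b h => by
  rw [← D.w₁_over a, ← D.w₁_over b, h]

theorem gal_notMem (x : InfinitePlace S.K) (y : InfinitePlace S.K) :
    D.w₁ y ≠ (D.w₁ x).comap D.σ.toRingHom ∧
      D.w₁ y ≠ ((D.w₁ x).comap D.σ.toRingHom).comap D.σ.toRingHom := by
  have h := S.infinitePlace_orbit_injective D.isGen (D.w₁ x)
  constructor <;> intro he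
  · have hyx : y = x := by
      rw [← D.w₁_over y, he, D.comap_gal_comap, D.w₁_over]
    subst hyx
    exact h.1 he.symm
  · have hyx : y = x := by
      rw [← D.w₁_over y, he, D.comap_gal_comap, D.comap_gal_comap, D.w₁_over]
    subst hyx
    exact h.2 he.symm

variable (𝔇F : AutDomain PGL(2, S.F) (yVol (S.levelIdeal S.F)))
  {𝔇K : AutDomain PGL(2, S.K) (yVol (S.levelIdeal S.K))}

/-- The generator equations on `K`. -/
theorem eq_of_mem_kerK {v : 𝔇K.Space} (hv : v ∈ Joint.kerAll (D.XK 𝔇F 𝔇K)) (j : D.Index) :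
    (D.word j).OK D.Ψ D.σ D.w₁ 𝔇K v = D.scal j • (D.base j).OK D.Ψ D.σ D.w₁ 𝔇K v := by
  have h := (D.mem_kerK 𝔇F 𝔇K).mp hv j
  rwa [genK, sub_apply, smul_apply, sub_eq_zero] at h

theorem symm_unitKerK (x y : 𝔇K.Space) :
    ⟪(isYKernel_unitKer (S.isCosetOp_levelOpK D.Ψ)).clm 𝔇K x, y⟫_ℂ =
      ⟪x, (isYKernel_unitKer (S.isCosetOp_levelOpK D.Ψ)).clm 𝔇K y⟫_ℂ :=
  inner_clm_yKer 𝔇K (fun _ => H3.isInvKer_ballKer 1) (fun _ => H3.conj_ballWord [])
    (S.isCosetOp_levelOpK D.Ψ) (S.isHermOp_levelOpK D.Ψ) x y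

theorem OK_unit_zero : (MWord.unit (S := S) 0).OK D.Ψ D.σ D.w₁ 𝔇K =
    (isYKernel_unitKer (S.isCosetOp_levelOpK D.Ψ)).clm 𝔇K ^ 3 :=
  MWord.OK_unit D.Ψ D.σ D.w₁ 𝔇K 0

theorem OK_onesWord {v : 𝔇K.Space} (hv : v ∈ Joint.kerAll (D.XK 𝔇F 𝔇K)) :
    ∀ l : List (InfinitePlace S.K), (onesWord (l.map D.w₁)).OK D.Ψ D.σ D.w₁ 𝔇K v =
      (H3.sph0 1 : ℂ) ^ l.length •
        ((isYKernel_unitKer (S.isCosetOp_levelOpK D.Ψ)).clm 𝔇K ^ (3 * l.length + 3)) v
  | [] => by simp [onesWord, OK_unit_zero]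
  | x :: l => by
    have h1 : (MWord.ball (D.w₁ x) (1 : ℝ)).OK D.Ψ D.σ D.w₁ 𝔇K v =
        (H3.sph0 1 : ℂ) • (MWord.unit (S := S) 0).OK D.Ψ D.σ D.w₁ 𝔇K v := by
      simpa [word, base, scal] using
        D.eq_of_mem_kerK 𝔇F hv (Sum.inl (D.w₁ x, ⟨1, one_pos⟩))
    set U := (isYKernel_unitKer (S.isCosetOp_levelOpK D.Ψ)).clm 𝔇K
    have hc : Commute ((MWord.ball (D.w₁ x) (1 : ℝ)).OK D.Ψ D.σ D.w₁ 𝔇K) U :=
      commute_clm_yKer (fun _ => H3.isInvKer_ballWord _) (fun _ => H3.isInvKer_ballKer 1)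
        (MWord.opK_cosetOp _ _) (S.isCosetOp_levelOpK D.Ψ)
        (by simp [MWord.opK, MWord.ball, Commute.refl]) 𝔇K
    rw [List.map_cons, onesWord, ← MWord.OK_mul, StrongLimit.mulv, OK_onesWord hv l, map_smul,
      ← StrongLimit.mulv, (hc.pow_right _).eq, StrongLimit.mulv, h1, OK_unit_zero, map_smul,
      smul_smul, ← StrongLimit.mulv, ← pow_add, List.length_cons, ← pow_succ]
    rfl

open Classical in
theorem unit_eigen_K {u : 𝔇K.Space} (hu : u ∈ Joint.kerAll (D.XK 𝔇F 𝔇K)) :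
    (isYKernel_unitKer (S.isCosetOp_levelOpK D.Ψ)).clm 𝔇K
        ((isYKernel_unitKer (S.isCosetOp_levelOpK D.Ψ)).clm 𝔇K u) =
      Setup.unitMean S.K • (isYKernel_unitKer (S.isCosetOp_levelOpK D.Ψ)).clm 𝔇K u := by
  set l := (Finset.univ : Finset (InfinitePlace S.K)).toList
  set U := (isYKernel_unitKer (S.isCosetOp_levelOpK D.Ψ)).clm 𝔇K
  set n := l.length
  have h1x : ∀ x, (l.map D.w₁).count (D.w₁ x) = 1 := fun x =>
    List.count_eq_one_of_mem ((Finset.nodup_toList _).map D.w₁_injective)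
      (List.mem_map_of_mem (Finset.mem_toList.mpr (Finset.mem_univ x)))
  have h2x : ∀ x, (l.map D.w₁).count ((D.w₁ x).comap D.σ.toRingHom) = 0 := fun x =>
    List.count_eq_zero.mpr fun h => by
      obtain ⟨y, -, hy⟩ := List.mem_map.mp h
      exact (D.gal_notMem x y).1 hy
  have h3x : ∀ x, (l.map D.w₁).count (((D.w₁ x).comap D.σ.toRingHom).comap D.σ.toRingHom) = 0 :=
    fun x => List.count_eq_zero.mpr fun h => by
      obtain ⟨y, -, hy⟩ := List.mem_map.mp h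
      exact (D.gal_notMem x y).2 hy
  have hW : (onesWord (l.map D.w₁)).OK D.Ψ D.σ D.w₁ 𝔇K = U ^ (3 * n + 3 + 1) := by
    rw [← clm_yPow, MWord.OK]
    refine clm_congr 𝔇K _ _ ?_
    rw [yPow_unitKer (S.isCosetOp_levelOpK D.Ψ) (S.levelOpK_idem D.Ψ), MWord.kerK, MWord.opK,
      onesWord_pl]
    simp only [List.map_nil, List.prod_nil, mul_one]
    congr 1
    funext x
    congr 1
    simp only [MWord.radK, onesWord_rad, h1x, h2x, h3x, List.length_map, add_zero,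
      ← List.replicate_succ, ← List.replicate_add]
    congr 1
    omega
  have h1 := D.OK_onesWord 𝔇F hu l
  rw [hW] at h1
  have h2 : (U ^ (3 * n + 3)) (U u - Setup.unitMean S.K • u) = 0 := by
    rw [map_sub, map_smul, ← StrongLimit.mulv, ← pow_succ, h1, Setup.unitMean, ← Finset.card_univ,
      ← Finset.length_toList, sub_self]
  have h3 := eq_zero_of_pow_apply D.symm_unitKerK (3 * n + 2) h2
  rwa [map_sub, map_smul, sub_eq_zero] at h3

open Classical in
theorem kerK_ball (x : InfinitePlace S.K) (q : ℝ) :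
    yConv (placeKer (S.levelOpK D.Ψ) x q) (yPow (unitKer (S.levelOpK D.Ψ)) 1) =
      (MWord.ball (D.w₁ x) q).kerK D.Ψ D.σ D.w₁ := by
  have hT := S.isCosetOp_levelOpK D.Ψ
  rw [yPow_unitKer hT (S.levelOpK_idem D.Ψ), placeKer, yConv_yKer hT hT, S.levelOpK_idem,
    MWord.kerK, MWord.opK]
  simp only [MWord.ball, List.map_nil, List.prod_nil, mul_one]
  congr 1
  funext y
  simp only [MWord.radK]
  rw [Function.update_of_ne (D.gal_notMem y x).1.symm,
    Function.update_of_ne (D.gal_notMem y x).2.symm]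
  by_cases h : y = x
  · subst h
    rw [Function.update_self, Function.update_self]
    exact H3.kConv_ballWord [q] [1]
  · rw [Function.update_of_ne h, Function.update_of_ne fun e => h (D.w₁_injective e)]
    exact H3.kConv_ballWord [] [1]

theorem kerK_hecke {w : HeightOneSpectrum (𝓞 S.F)} (hw : ((3 * S.m : ℕ) : 𝓞 S.F) ∉ w.asIdeal) :
    yConv (unitKer (S.levelOpK D.Ψ * S.bcOp w)) (yPow (unitKer (S.levelOpK D.Ψ)) 1) =
      (MWord.hecke w hw).kerK D.Ψ D.σ D.w₁ := by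
  have hT := S.isCosetOp_levelOpK D.Ψ
  rw [yPow_unitKer hT (S.levelOpK_idem D.Ψ), unitKer, yConv_yKer (hT.mul (S.isCosetOp_bcOp hw)) hT,
    mul_assoc, ← (S.commute_levelOpK_bcOp D.Ψ hw).eq, ← mul_assoc, S.levelOpK_idem,
    MWord.kerK, MWord.opK]
  simp only [MWord.hecke, List.map_singleton, List.prod_singleton]
  congr 1

/-- The unit operator maps the common kernel to vectors with the prescribed eigenvalues. -/
theorem isKVec_of_mem {u : 𝔇K.Space} (hu : u ∈ Joint.kerAll (D.XK 𝔇F 𝔇K)) :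
    D.IsKVec 𝔇K ((isYKernel_unitKer (S.isCosetOp_levelOpK D.Ψ)).clm 𝔇K u) := by
  set U := (isYKernel_unitKer (S.isCosetOp_levelOpK D.Ψ)).clm 𝔇K
  set c := Setup.unitMean S.K
  have hU : U (U u) = c • U u := D.unit_eigen_K 𝔇F hu
  have hU3 : (U ^ 3) u = (c * c) • U u := by
    rw [pow_succ, pow_two, StrongLimit.mulv, StrongLimit.mulv, hU, map_smul, hU, smul_smul]
  have key : ∀ {k : YSpace (S.levelIdeal S.K) → YSpace (S.levelIdeal S.K) → ℂ} (hk : IsYKernel k)
      {x : MWord S}, yConv k (yPow (unitKer (S.levelOpK D.Ψ)) 1) = x.kerK D.Ψ D.σ D.w₁ →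
      ∀ {r : ℂ}, x.OK D.Ψ D.σ D.w₁ 𝔇K u = r • (MWord.unit (S := S) 0).OK D.Ψ D.σ D.w₁ 𝔇K u →
      hk.clm 𝔇K (U u) = (r * c) • U u := by
    intro k hk x hx r hr
    have e : hk.clm 𝔇K * U ^ (1 + 1) = x.OK D.Ψ D.σ D.w₁ 𝔇K := by
      rw [← clm_yPow, IsYKernel.clm_mul, MWord.OK]
      exact clm_congr 𝔇K _ _ hx
    rw [← e, OK_unit_zero, hU3, StrongLimit.mulv, pow_two, StrongLimit.mulv, hU, map_smul,
      smul_smul] at hr
    refine (smul_right_injective _ (Setup.unitMean_ne_zero S.K : c ≠ 0)) ?_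
    dsimp only
    rw [hr, smul_smul]
    congr 1
    ring
  refine ⟨hU, fun x q hq => ?_, fun w hw hne => ?_⟩
  · refine key (isYKernel_placeKer (S.isCosetOp_levelOpK D.Ψ) x (q : ℝ)) (D.kerK_ball x q) ?_
    simpa only [word, base, scal] using D.eq_of_mem_kerK 𝔇F hu (Sum.inl (D.w₁ x, ⟨q, hq⟩))
  · refine key _ (D.kerK_hecke hw) ?_
    simpa only [word, base, scal] using D.eq_of_mem_kerK 𝔇F hu (Sum.inr (Sum.inl ⟨w, hw, hne⟩))

/-- A nonzero pairing gives a nonzero vector. -/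
theorem exists_isKVec {ι : Type*} {e : ι → 𝔇K.Space}
    (h : Joint.pairing (MWord.famK D.Ψ D.σ D.w₁ 𝔇K e)
      (MWord.famK' D.Ψ D.σ D.w₁ 𝔇K (MWord.hecke D.ws D.ws_good) e)
      (Joint.kerAll (D.XK 𝔇F 𝔇K)).starProjection ≠ 0) :
    ∃ v : 𝔇K.Space, v ≠ 0 ∧ D.IsKVec 𝔇K v := by
  by_contra hno
  push Not at hno
  refine h ((tsum_congr fun i => ?_).trans tsum_zero)
  have hu := Submodule.starProjection_apply_mem (Joint.kerAll (D.XK 𝔇F 𝔇K)) (e i)
  have hz := by_contra fun hne => hno _ hne (D.isKVec_of_mem 𝔇F hu)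
  rw [MWord.famK, Joint.projection_commute
      (fun x y => MWord.OK_symm _ _ _ _ 𝔇K (MWord.hermK_nil _ _ rfl) x y)
      (fun n => show Commute _ (D.XK 𝔇F 𝔇K n) from (D.commute_genK 𝔇K _ _).smul_right _), MWord.OK_unit, pow_succ, StrongLimit.mulv,
    hz, map_zero, inner_zero_left]

end DescentData

end FermatAgent.LT
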