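import Mathlib
import Fermat.Agent.LT.Descent.Spectral.Final.Defs
import Fermat.Agent.LT.Descent.Descended
import Fermat.Agent.LT.Descent.Spectral.Final.SmoothHecke

set_option autoImplicit false

/-!
# From a vector on `K` to the descended form
-/

noncomputable section

open MeasureTheory NumberField IsDedekindDomain
open scoped MatrixGroups

namespace FermatAgent.LT

variable {S : Setup}

section Eig

variable {E : Type*} [NormedAddCommGroup E] [NormedSpace ℂ E] (f : E →L[ℂ] E) {a : ℂ} {x y : E}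

theorem eig_zero : f 0 = a • (0 : E) := by rw [map_zero, smul_zero]

theorem eig_add (hx : f x = a • x) (hy : f y = a • y) : f (x + y) = a • (x + y) := by
  rw [map_add, hx, hy, smul_add]

theorem eig_smul (r : ℂ) (hx : f x = a • x) : f (r • x) = a • (r • x) := by
  rw [map_smul, hx, smul_comm]

theorem eig_comm {g : E →L[ℂ] E} (h : Commute g f) (hx : f x = a • x) : f (g x) = a • g x := by
  change (f * g) x = _
  rw [← h.eq]
  change g (f x) = _
  rw [hx, map_smul]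

end Eig

section Comm

variable {L : Type*} [Field L] [NumberField L] {𝔫 : Ideal (𝓞 L)} [Fact (𝔫 ≠ ⊥)]
  {T T' : Module.End ℂ (Cosets 𝔫 → ℂ)} (𝔇 : AutDomain PGL(2, L) (yVol 𝔫))

theorem commute_clm_unitKer (hT : IsCosetOp T) (hT' : IsCosetOp T') (hc : Commute T T') :
    Commute ((isYKernel_unitKer hT).clm 𝔇) ((isYKernel_unitKer hT').clm 𝔇) :=
  commute_clm_yKer (fun _ => H3.isInvKer_ballKer 1) (fun _ => H3.isInvKer_ballKer 1) hT hT' hc 𝔇

theorem commute_clm_placeKer (hT : IsCosetOp T) (hT' : IsCosetOp T') (hc : Commute T T')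
    (w : InfinitePlace L) (ε : ℝ) :
    Commute ((isYKernel_unitKer hT).clm 𝔇) ((isYKernel_placeKer hT' w ε).clm 𝔇) := by
  classical
  exact commute_clm_yKer (fun _ => H3.isInvKer_ballKer 1) (fun u => isInvKer_update w ε u) hT hT' hc 𝔇

theorem inner_clm_unitKer (hT : IsCosetOp T) (hTh : IsHermOp T) (x y : 𝔇.Space) :
    inner ℂ ((isYKernel_unitKer hT).clm 𝔇 x) y = inner ℂ x ((isYKernel_unitKer hT).clm 𝔇 y) :=
  inner_clm_yKer 𝔇 (fun _ => H3.isInvKer_ballKer 1)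
    (fun _ P Q => by simp only [H3.ballKer, Set.indicator]; split_ifs <;> simp) hT hTh x y

end Comm

/-- The vectors with the eigenvalues prescribed by `D`. -/
def DescentData.kVecs (D : DescentData S)
    (𝔇K : AutDomain PGL(2, S.K) (yVol (S.levelIdeal S.K))) : Submodule ℂ 𝔇K.Space where
  carrier := {u | D.IsKVec 𝔇K u}
  zero_mem' := ⟨eig_zero _, fun _ _ _ => eig_zero _, fun _ _ _ => eig_zero _⟩
  add_mem' := fun ha hb =>
    ⟨eig_add _ ha.unit hb.unit, fun u q hq => eig_add _ (ha.ball u q hq) (hb.ball u q hq),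
      fun w hw hne => eig_add _ (ha.bc w hw hne) (hb.bc w hw hne)⟩
  smul_mem' := fun r _ ha =>
    ⟨eig_smul _ r ha.unit, fun u q hq => eig_smul _ r (ha.ball u q hq),
      fun w hw hne => eig_smul _ r (ha.bc w hw hne)⟩

theorem DescentData.finiteDimensional_kVecs (D : DescentData S)
    (𝔇K : AutDomain PGL(2, S.K) (yVol (S.levelIdeal S.K)))
    [IsFiniteMeasure ((yVol (S.levelIdeal S.K)).restrict 𝔇K.carrier)] :
    FiniteDimensional ℂ (D.kVecs 𝔇K) := by
  obtain ⟨b, e, -⟩ := exists_hilbertBasis ℂ 𝔇K.Space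
  refine Joint.finiteDimensional_scalar (A := (MWord.unit (S := S) S.depth).OK D.Ψ D.σ D.w₁ 𝔇K)
    (e := e) (MWord.summable_famK D.Ψ D.σ D.w₁ 𝔇K e D.nontriv)
    (MWord.OK_symm _ _ _ _ 𝔇K (MWord.hermK_nil _ _ rfl))
    (c := Setup.unitMean S.K ^ (3 * S.depth + 2 + 1))
    (pow_ne_zero _ (Setup.unitMean_ne_zero S.K)) fun u hu => ?_
  rw [MWord.OK_unit]
  have h : ∀ n : ℕ, ((isYKernel_unitKer (S.isCosetOp_levelOpK D.Ψ)).clm 𝔇K ^ n) u =
      Setup.unitMean S.K ^ n • u := fun n => by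
    induction n with
    | zero => simp
    | succ n ih => rw [pow_succ', StrongLimit.mulv, ih, map_smul, hu.unit, smul_smul, pow_succ]
  exact h _

theorem Setup.isHermOp_heckeK (S : Setup) (Ψ : S.PsiData) {v : HeightOneSpectrum (𝓞 S.K)}
    (hv : ((3 * S.m : ℕ) : 𝓞 S.K) ∉ v.asIdeal) :
    IsHermOp (S.levelOpK Ψ * heckeOp (S.levelIdeal S.K) v) :=
  IsHermOp.mul_of_commute (S.isCosetOp_levelOpK Ψ)
    (isCosetOp_heckeOp (S.levelIdeal_ne_bot _) (S.not_level_le hv)) (S.isHermOp_levelOpK Ψ)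
    (isHermOp_heckeOp (S.levelIdeal_ne_bot _) (S.not_level_le hv)) (S.commute_levelOpK Ψ hv)

theorem Setup.isCosetOp_heckeK (S : Setup) (Ψ : S.PsiData) {v : HeightOneSpectrum (𝓞 S.K)}
    (hv : ((3 * S.m : ℕ) : 𝓞 S.K) ∉ v.asIdeal) :
    IsCosetOp (S.levelOpK Ψ * heckeOp (S.levelIdeal S.K) v) :=
  (S.isCosetOp_levelOpK Ψ).mul (isCosetOp_heckeOp (S.levelIdeal_ne_bot _) (S.not_level_le hv))

theorem Setup.commute_heckeK_bcOp (S : Setup) {v : HeightOneSpectrum (𝓞 S.K)}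
    (hv : ((3 * S.m : ℕ) : 𝓞 S.K) ∉ v.asIdeal) {w : HeightOneSpectrum (𝓞 S.F)}
    (hw : ((3 * S.m : ℕ) : 𝓞 S.F) ∉ w.asIdeal) :
    Commute (heckeOp (S.levelIdeal S.K) v) (S.bcOp w) := by
  have h := commute_heckeOp (S.levelIdeal_ne_bot S.K) (S.not_level_le hv)
    (S.not_level_le (S.underK_good hw))
  unfold Setup.bcOp
  split_ifs
  · exact h
  · exact (h.pow_right 3).sub_right (h.smul_right _)

/-- An eigenvalue of the cubic base change of size at most two. -/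
theorem abs_le_two_of_cubic {l t : ℝ} (h : l ^ 3 - 3 * l = t) (ht : |t| ≤ 2) : |l| ≤ 2 := by
  rw [abs_le] at ht ⊢
  constructor <;> by_contra hl <;> push Not at hl
  · nlinarith [mul_pos (by linarith : 0 < -l - 2) (pow_pos (by linarith : 0 < -(l - 1)) 2)]
  · nlinarith [mul_pos (by linarith : 0 < l - 2) (pow_pos (by linarith : 0 < l + 1) 2)]

/-- The conditions at one good place. -/
theorem DescentData.exists_eigenvalue (D : DescentData S) (ht : S.IsTrace D.t)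
    (𝔇K : AutDomain PGL(2, S.K) (yVol (S.levelIdeal S.K))) {u : 𝔇K.Space} (hu : D.IsKVec 𝔇K u)
    {Φ : YSpace (S.levelIdeal S.K) → ℂ}
    (hΦ : IsSmoothEigen (S.levelOpK D.Ψ) Φ (Setup.unitMean S.K))
    (hlift : 𝔇K.lift u =ᵐ[yVol (S.levelIdeal S.K)] Φ)
    (hne : (fun (x : XInf S.K) (g : GAf S.K) => Φ (x, (g : Cosets (S.levelIdeal S.K)))) ≠ 0)
    {p : HeightOneSpectrum (𝓞 S.K)} (hp : ((3 * S.m : ℕ) : 𝓞 S.K) ∉ p.asIdeal) {r : ℝ}
    (hr : (isYKernel_unitKer (S.isCosetOp_heckeK D.Ψ hp)).clm 𝔇K u = (r : ℂ) • u) :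
    ∃ l : ℝ, IsEigenAt p (fun x g => Φ (x, (g : Cosets (S.levelIdeal S.K)))) (l : ℂ) ∧
      ((∀ n ∈ ({Ideal.absNorm D.ws.asIdeal} : Finset ℕ), (n : 𝓞 S.K) ∉ p.asIdeal) → |l| ≤ 2) ∧
      ((∀ n ∈ ({Ideal.absNorm D.ws.asIdeal} : Finset ℕ), (n : 𝓞 S.K) ∉ p.asIdeal) →
        ∀ σ, IsFrobOver p σ → S.ρ σ ∈ quaternionSubgroup → l = (q8Trace (S.ρ σ) : ℝ)) := by
  have hn := S.levelIdeal_ne_bot S.K
  have hmem : ((Ideal.absNorm D.ws.asIdeal : ℕ) : 𝓞 S.F) ∈ D.ws.asIdeal := Ideal.absNorm_mem _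
  have hL : IsCosetOp (S.levelOpK D.Ψ) := S.isCosetOp_levelOpK D.Ψ
  set φ : XInf S.K → GAf S.K → ℂ := fun x g => Φ (x, (g : Cosets (S.levelIdeal S.K)))
  set c := Setup.unitMean S.K with hc_def
  have hc : c ≠ 0 := Setup.unitMean_ne_zero S.K
  set cr : ℝ := H3.sph0 1 ^ Fintype.card (InfinitePlace S.K)
  have hcr : (cr : ℂ) = c := by simp [cr, hc_def, Setup.unitMean]
  have hcr0 : cr ≠ 0 := fun h => hc (by rw [← hcr, h, Complex.ofReal_zero])
  set N : ℝ := (Ideal.absNorm p.asIdeal : ℝ)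
  have hN : 0 < N := by
    have : Ideal.absNorm p.asIdeal ≠ 0 := by simp [Ideal.absNorm_eq_zero_iff, p.ne_bot]
    positivity
  set μ : ℝ := r / cr with hμ
  set l : ℝ := μ / Real.sqrt N with hl
  have hμl : μ = Real.sqrt N * l := by
    rw [hl, mul_div_cancel₀ _ (Real.sqrt_pos.mpr hN).ne']
  have hH : ∀ x, heckeOp (S.levelIdeal S.K) p (fun q => Φ (x, q)) = (μ : ℂ) • fun q => Φ (x, q) := by
    intro x
    refine funext fun q => ?_
    refine hΦ.op_eq_smul 𝔇K hc hL (isCosetOp_heckeOp hn (S.not_level_le hp))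
      (S.commute_levelOpK D.Ψ hp) hlift ?_ x q
    rw [← hcr, ← Complex.ofReal_mul, hμ, div_mul_cancel₀ _ hcr0]
    exact hr
  have heig : IsEigenAt p φ (l : ℂ) := by
    intro x g
    have h2 := congrFun (hH x) (g : Cosets (S.levelIdeal S.K))
    rw [heckeOp_mk hn (S.not_level_le hp) _ g x] at h2
    refine Eq.trans ?_ (h2.trans ?_)
    · rfl
    · rw [Pi.smul_apply, smul_eq_mul, hμl, Complex.ofReal_mul]
  obtain ⟨x₀, g₀, hx₀⟩ : ∃ x g, φ x g ≠ 0 := by
    by_contra! h0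
    exact hne (funext fun x => funext fun g => h0 x g)
  -- the relations at the places above
  have hrel : (∀ n ∈ ({Ideal.absNorm D.ws.asIdeal} : Finset ℕ), (n : 𝓞 S.K) ∉ p.asIdeal) →
      ∀ w, S.underK w = p →
        (Ideal.absNorm w.asIdeal = Ideal.absNorm p.asIdeal → l = (D.t w : ℝ)) ∧
          |l| ≤ 2 := by
    intro hout w hwp
    subst hwp
    have hwws : w ≠ D.ws := fun e => hout _ (Finset.mem_singleton_self _) (by
      show S.inclInt _ ∈ w.asIdeal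
      rw [S.inclKF_natCast, e]
      exact hmem)
    have hw : ((3 * S.m : ℕ) : 𝓞 S.F) ∉ w.asIdeal := fun h => hp (by
      show S.inclInt _ ∈ w.asIdeal
      rwa [S.inclKF_natCast])
    have h1 := hΦ.op_eq_smul 𝔇K hc hL (S.isCosetOp_bcOp hw) (S.commute_levelOpK_bcOp D.Ψ hw)
      hlift (hu.bc w hw hwws) x₀ (g₀ : Cosets (S.levelIdeal S.K))
    have htb : |(D.t w : ℝ)| ≤ 2 := by exact_mod_cast ht.bound w
    have hsq : Real.sqrt N ≠ 0 := (Real.sqrt_pos.mpr hN).ne'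
    unfold Setup.bcOp at h1
    by_cases hs : Ideal.absNorm w.asIdeal = Ideal.absNorm (S.underK w).asIdeal
    · rw [if_pos hs, hH x₀, Pi.smul_apply, smul_eq_mul] at h1
      have h2 : μ = Real.sqrt N * (D.t w : ℝ) := by
        have h3 := mul_right_cancel₀ hx₀ h1
        simp only [DescentData.lam, hs] at h3
        exact_mod_cast h3
      have hlt : l = (D.t w : ℝ) := mul_left_cancel₀ hsq (hμl ▸ h2)
      exact ⟨fun _ => hlt, hlt ▸ htb⟩
    · refine ⟨fun h => absurd h hs, ?_⟩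
      rw [if_neg hs, LinearMap.sub_apply, LinearMap.smul_apply, pow_succ, pow_two,
        Module.End.mul_apply, Module.End.mul_apply] at h1
      simp only [hH x₀, map_smul, smul_smul, Pi.sub_apply, Pi.smul_apply, smul_eq_mul] at h1
      rw [← sub_mul] at h1
      have h3 := mul_right_cancel₀ hx₀ h1
      have hN3 : Ideal.absNorm w.asIdeal = Ideal.absNorm (S.underK w).asIdeal ^ 3 :=
        (S.absNorm_underK w).resolve_left hs
      simp only [DescentData.lam, hN3] at h3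
      have h4 : μ * μ * μ - 3 * N * μ = Real.sqrt (N ^ 3) * (D.t w : ℝ) := by
        simp only [N]
        push_cast at h3
        exact_mod_cast h3
      refine abs_le_two_of_cubic (t := (D.t w : ℝ)) ?_ htb
      rw [show N ^ 3 = N ^ 2 * N by ring, Real.sqrt_mul (by positivity), Real.sqrt_sq hN.le, hμl] at h4
      have hsN := Real.mul_self_sqrt hN.le
      refine mul_left_cancel₀ (mul_ne_zero hN.ne' hsq) ?_
      linear_combination h4 - (Real.sqrt N * l ^ 3) * hsN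
  refine ⟨l, heig, fun hout => ?_, fun hout σ hσ hQ => ?_⟩
  · obtain ⟨w, hw⟩ := S.exists_place_over p
    exact (hrel hout w hw).2
  · obtain ⟨w, hw, hnorm, hwσ⟩ := S.exists_over_frob hσ hQ
    rw [(hrel hout w hw).1 hnorm, ht.frob w (fun h => hp (by
      rw [← hw]
      show S.inclInt _ ∈ w.asIdeal
      rwa [S.inclKF_natCast])) σ hwσ]

/-- **The descended form.** -/
theorem DescentData.exists_isDescended (D : DescentData S) (ht : S.IsTrace D.t)
    (𝔇K : AutDomain PGL(2, S.K) (yVol (S.levelIdeal S.K)))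
    [IsFiniteMeasure ((yVol (S.levelIdeal S.K)).restrict 𝔇K.carrier)] {v : 𝔇K.Space}
    (hv0 : v ≠ 0) (hv : D.IsKVec 𝔇K v) :
    ∃ (T : Finset ℕ) (φ : XInf S.K → GAf S.K → ℂ), IsDescended S D.Ψ T φ := by
  classical
  have hn := S.levelIdeal_ne_bot S.K
  have hfdim := D.finiteDimensional_kVecs 𝔇K
  have hU : D.kVecs 𝔇K ≠ ⊥ := fun h => hv0 (by
    have hm : v ∈ D.kVecs 𝔇K := hv
    rwa [h, Submodule.mem_bot] at hm)
  set L := S.levelOpK D.Ψ
  have hL : IsCosetOp L := S.isCosetOp_levelOpK D.Ψ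
  let J := {p : HeightOneSpectrum (𝓞 S.K) // ((3 * S.m : ℕ) : 𝓞 S.K) ∉ p.asIdeal}
  let T : J → 𝔇K.Space →L[ℂ] 𝔇K.Space := fun j =>
    (isYKernel_unitKer (S.isCosetOp_heckeK D.Ψ j.2)).clm 𝔇K
  have hLL : ∀ j : J, Commute (L * heckeOp (S.levelIdeal S.K) j.1) L := fun j =>
    (Commute.refl L).mul_left (S.commute_levelOpK D.Ψ j.2).symm
  have hT : ∀ j, ∀ u ∈ D.kVecs 𝔇K, T j u ∈ D.kVecs 𝔇K := by
    intro j u hu
    refine ⟨eig_comm _ (commute_clm_unitKer 𝔇K (S.isCosetOp_heckeK D.Ψ j.2) hL (hLL j)) hu.unit,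
      fun p q hq => eig_comm _ (commute_clm_placeKer 𝔇K (S.isCosetOp_heckeK D.Ψ j.2) hL (hLL j) p (q : ℝ)) (hu.ball p q hq),
      fun w hw hne => eig_comm _ (commute_clm_unitKer 𝔇K (S.isCosetOp_heckeK D.Ψ j.2) (hL.mul (S.isCosetOp_bcOp hw))
        ((hLL j).mul_right ((S.commute_levelOpK_bcOp D.Ψ hw).mul_left
          (S.commute_heckeK_bcOp j.2 hw)))) (hu.bc w hw hne)⟩
  obtain ⟨u, hu, hu0, hTu⟩ := Joint.exists_joint_eigen (T := T)
    (fun j => inner_clm_unitKer 𝔇K (S.isCosetOp_heckeK D.Ψ j.2) (S.isHermOp_heckeK D.Ψ j.2))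
    hU hT (fun i j x _ => by
      have hcomm : Commute (L * heckeOp (S.levelIdeal S.K) i.1) (L * heckeOp (S.levelIdeal S.K) j.1) :=
        (hLL i).mul_right ((S.commute_levelOpK D.Ψ j.2).mul_left
          (commute_heckeOp hn (S.not_level_le i.2) (S.not_level_le j.2)))
      exact ContinuousLinearMap.ext_iff.mp (commute_clm_unitKer 𝔇K (S.isCosetOp_heckeK D.Ψ i.2)
        (S.isCosetOp_heckeK D.Ψ j.2) hcomm).eq x)
  set c := Setup.unitMean S.K with hc_def
  have hc : c ≠ 0 := Setup.unitMean_ne_zero S.K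
  have hfin : yVol (S.levelIdeal S.K) 𝔇K.carrier < ⊤ := by
    simpa using measure_lt_top ((yVol (S.levelIdeal S.K)).restrict 𝔇K.carrier) Set.univ
  have hsm := MWord.kerK_smoothing_bounded D.Ψ D.σ D.w₁ D.nontriv
  rw [MWord.kerK_unit] at hsm
  obtain ⟨Φ, hΦ, hlift⟩ := exists_smooth 𝔇K hfin hL hsm hc hu.unit
  have hfix := fun x => hΦ.apply_op hc hL (S.levelOpK_idem D.Ψ) x
  obtain ⟨v₃, hv₃⟩ := Setup.exists_three_mem S.K
  have hbad : ∀ p : HeightOneSpectrum (𝓞 S.K), (3 : 𝓞 S.K) ∈ p.asIdeal →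
      ((3 * S.m : ℕ) : 𝓞 S.K) ∈ p.asIdeal := fun p h => by
    push_cast; exact Ideal.mul_mem_right _ _ h
  have hcuspop : ∀ p : HeightOneSpectrum (𝓞 S.K), (3 : 𝓞 S.K) ∈ p.asIdeal → IsCuspOpAt p L :=
    fun p h => isCuspOpAt_levelOp hn (S.badPlaces_level _) S.card_residue_three_K
      ((S.mem_badPlaces_iff _ p).mpr (hbad p h)) h (D.nontriv p (hbad p h))
  set φ : XInf S.K → GAf S.K → ℂ := fun x g => Φ (x, (g : Cosets (S.levelIdeal S.K)))
  have hne : φ ≠ 0 := fun h0 => hu0 (by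
    refine (Lp.eq_zero_iff_ae_eq_zero).mpr ?_
    filter_upwards [𝔇K.lift_ae_restrict u, ae_restrict_of_ae hlift] with y h1 h2
    obtain ⟨x, q⟩ := y
    obtain ⟨g, rfl⟩ := QuotientGroup.mk_surjective q
    rw [← h1, h2]
    exact congrFun (congrFun h0 x) g)
  have hmem : ((Ideal.absNorm D.ws.asIdeal : ℕ) : 𝓞 S.F) ∈ D.ws.asIdeal := Ideal.absNorm_mem _
  refine ⟨{Ideal.absNorm D.ws.asIdeal}, φ, hne, ?_, ?_, ?_, ?_, ?_⟩
  · rw [Finset.mem_singleton]
    exact fun h => D.ws.ne_bot (Ideal.absNorm_eq_zero_iff.mp h.symm)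
  · exact hΦ.isCuspFn 𝔇K hc hL (S.levelOpK_idem D.Ψ) (hcuspop v₃ hv₃) hlift
      fun p ε hε => hu.ball p ε (by exact_mod_cast hε)
  · intro p hp x g b
    have h := isPsiAt_levelOp hn (S.badPlaces_level _) S.card_residue_three_K (ψ := D.Ψ)
      ((S.mem_badPlaces_iff _ p).mpr hp) (fun q => Φ (x, q)) x g b
    change L (fun q => Φ (x, q)) _ = _ * L (fun q => Φ (x, q)) _ at h
    rw [hfix x] at h
    exact h
  · intro p hp x g k
    have h := hcuspop p hp (fun q => Φ (x, q)) x g k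
    rw [hfix x] at h
    exact h
  · intro p hp
    obtain ⟨r, hr⟩ := hTu ⟨p, hp⟩
    exact D.exists_eigenvalue ht 𝔇K hu hΦ hlift hne hp hr

end FermatAgent.LT
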